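/-
Programme FF (S19), chapter RED (helper7): **the abstract good-reduction datum** `RedDatum`.

`F / L` a function field over an algebraically closed field `L` with a valuation ring `A ⊂ L`,
`Ft / k` the reduced function field over the residue field `k`.  A `RedDatum` packages, in valuation
language, "a smooth proper model with good reduction":

* `G ⊂ F` the Gauss ring (integral functions) with its reduction `red : G →+* Ft`;
* `r : Place L F → Place k Ft` the specialisation of places, surjective, compatible with divisors
  of integral functions with multiplicities (`compat` = the Prelude's `IsPlaceReductionAlong`);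
* `good` : every place `P` has an integral uniformizer without poles on the fibre of `r P` and no other
  zero there (= `ChartHyp.peel` of `ES/RED`).

Chapters F1–F6 of Programme FF are abstract over this structure; only F0 instantiates it.

This file: the structure and the basic **fibre-sum calculus**:
`fibre_sum` (the coefficient of `Q` in the reduction of `div g` is the sum of the orders of `g` over the
fibre of `Q`), and its consequences for functions without poles on a fibre.
-/
import Mathlib
import Fermat.Agent.RR.LSpace
import Fermat.Agent.MW.EMB.Value6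

set_option autoImplicit false
set_option linter.unusedSectionVars false
set_option linter.style.longLine false

namespace Fermat.Agent.FF.RED.RedDatum7

open AlgebraicCurve Fermat.Agent.X0.FF Fermat.Agent.RR.LSpace Fermat.Agent.MW.EMB.Value6

noncomputable section

/-- **Good-reduction datum** for the function field `F / L` with respect to a valuation ring `A` of
`L`, with reduction `Ft / k`. -/
structure RedDatum (L F k Ft : Type*) [Field L] [Field F] [Algebra L F] [Field k] [Field Ft]
    [Algebra k Ft] where
  /-- the valuation ring of the constant field -/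
  A : ValuationSubring L
  /-- the residue map -/
  res : A →+* k
  res_surj : Function.Surjective res
  res_eq_zero_iff : ∀ a : A, res a = 0 ↔ ¬ IsUnit a
  /-- the Gauss ring: integral functions -/
  G : Subring F
  /-- reduction of integral functions -/
  red : G →+* Ft
  const_mem : ∀ a : A, algebraMap L F a ∈ G
  red_const : ∀ a : A, red ⟨algebraMap L F a, const_mem a⟩ = algebraMap k Ft (res a)
  /-- Gauss normalisation: every nonzero function has a constant multiple which is integral with
  nonzero reduction. -/
  norm : ∀ y : F, y ≠ 0 → ∃ c : L, c ≠ 0 ∧ ∃ g : G, (g : F) = algebraMap L F c * y ∧ red g ≠ 0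
  /-- saturation: the kernel of the reduction is `m_A · G`. -/
  sat : ∀ g : G, red g = 0 → ∃ c : A, ¬ IsUnit c ∧ ∃ g' : G, (g : F) = algebraMap L F c * (g' : F)
  HL : LHyp L F
  Hk : LHyp k Ft
  /-- specialisation of places -/
  r : Place L F → Place k Ft
  r_surj : Function.Surjective r
  /-- compatibility of `r` with divisors of integral functions (with multiplicities). -/
  compat : ∀ (g : G), red g ≠ 0 → ∀ D : Divisor L F, (∀ P, D P = P.ord (g : F)) →
    ∀ Q, Finsupp.mapDomain r D Q = Q.ord (red g)
  /-- good uniformizers. -/
  good : ∀ P : Place L F, ∃ u : G, P.ord (u : F) = 1 ∧ red u ≠ 0 ∧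
    ∀ P' : Place L F, r P' = r P → 0 ≤ P'.ord (u : F) ∧ (P' ≠ P → P'.ord (u : F) = 0)

variable {L F k Ft : Type*} [Field L] [Field F] [Algebra L F] [Field k] [Field Ft] [Algebra k Ft]

namespace RedDatum

variable (D : RedDatum L F k Ft)

/-- `s` has no pole on the fibre (residue disc) of `Q`. -/
def PoleFree (s : F) (Q : Place k Ft) : Prop := ∀ P : Place L F, D.r P = Q → 0 ≤ P.ord s

theorem coe_ne_zero_of_red_ne_zero {g : D.G} (hg : D.red g ≠ 0) : (g : F) ≠ 0 := by
  intro h0
  apply hg
  have : g = 0 := Subtype.ext h0
  rw [this, map_zero]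

/-- The constant `a ∈ A` as an element of the Gauss ring. -/
def const (a : D.A) : D.G := ⟨algebraMap L F a, D.const_mem a⟩

@[simp] theorem coe_const (a : D.A) : ((D.const a : D.G) : F) = algebraMap L F (a : L) := rfl

@[simp] theorem red_const' (a : D.A) : D.red (D.const a) = algebraMap k Ft (D.res a) :=
  D.red_const a

theorem res_eq_zero_of_mem_maximalIdeal {a : D.A} (ha : ¬ IsUnit a) : D.res a = 0 :=
  (D.res_eq_zero_iff a).mpr ha

open Classical in
/-- `mapDomain` evaluated at a point: the sum over the fibre. -/
theorem mapDomain_apply_eq_sum {α β : Type*} (f : α → β) (v : α →₀ ℤ) (b : β) :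
    Finsupp.mapDomain f v b = ∑ a ∈ v.support.filter (fun a => f a = b), v a := by
  rw [Finsupp.mapDomain, Finsupp.sum_apply, Finsupp.sum, Finset.sum_filter]
  refine Finset.sum_congr rfl fun a _ => ?_
  rw [Finsupp.single_apply]

open Classical in
/-- **Fibre sum**: the order of `red g` at `Q` is the sum of the orders of `g` over the fibre of `Q`
(a finite sum over the zeros and poles of `g`). -/
theorem fibre_sum (g : D.G) (hg : D.red g ≠ 0) (Q : Place k Ft) :
    ∑ P ∈ (divOf D.HL (D.coe_ne_zero_of_red_ne_zero hg)).support.filter (fun P => D.r P = Q),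
      P.ord (g : F) = Q.ord (D.red g) := by
  have h := D.compat g hg (divOf D.HL (D.coe_ne_zero_of_red_ne_zero hg))
    (fun P => divOf_apply D.HL _ P) Q
  rw [mapDomain_apply_eq_sum] at h
  rw [← h]
  exact Finset.sum_congr rfl fun P _ => (divOf_apply D.HL _ P).symm

/-- Without poles on the fibre, the reduction has no pole at `Q`. -/
theorem ord_red_nonneg {g : D.G} (hg : D.red g ≠ 0) {Q : Place k Ft} (hpf : D.PoleFree (g : F) Q) :
    0 ≤ Q.ord (D.red g) := by
  classical
  rw [← D.fibre_sum g hg Q]
  exact Finset.sum_nonneg fun P hP => hpf P (Finset.mem_filter.mp hP).2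

/-- Without poles on the fibre, the order at any place of the fibre is bounded by the order of the
reduction. -/
theorem ord_le_ord_red {g : D.G} (hg : D.red g ≠ 0) {Q : Place k Ft}
    (hpf : D.PoleFree (g : F) Q) {P : Place L F} (hP : D.r P = Q) :
    P.ord (g : F) ≤ Q.ord (D.red g) := by
  classical
  by_cases h0 : P.ord (g : F) = 0
  · rw [h0]; exact D.ord_red_nonneg hg hpf
  rw [← D.fibre_sum g hg Q]
  have hmem : P ∈ (divOf D.HL (D.coe_ne_zero_of_red_ne_zero hg)).support.filter
      (fun P => D.r P = Q) := by
    rw [Finset.mem_filter, Finsupp.mem_support_iff, divOf_apply]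
    exact ⟨h0, hP⟩
  exact Finset.single_le_sum (f := fun P : Place L F => P.ord (g : F))
    (fun P' hP' => hpf P' (Finset.mem_filter.mp hP').2) hmem

/-- Two distinct places of the fibre: the sum of the orders is bounded by the order of the
reduction. -/
theorem ord_add_ord_le_ord_red {g : D.G} (hg : D.red g ≠ 0) {Q : Place k Ft}
    (hpf : D.PoleFree (g : F) Q) {P P' : Place L F} (hP : D.r P = Q) (hP' : D.r P' = Q)
    (hne : P ≠ P') : P.ord (g : F) + P'.ord (g : F) ≤ Q.ord (D.red g) := by
  classical
  by_cases h0 : P.ord (g : F) = 0
  · rw [h0, zero_add]; exact D.ord_le_ord_red hg hpf hP'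
  by_cases h0' : P'.ord (g : F) = 0
  · rw [h0', add_zero]; exact D.ord_le_ord_red hg hpf hP
  rw [← D.fibre_sum g hg Q]
  have hmem : P ∈ (divOf D.HL (D.coe_ne_zero_of_red_ne_zero hg)).support.filter
      (fun P => D.r P = Q) := by
    rw [Finset.mem_filter, Finsupp.mem_support_iff, divOf_apply]
    exact ⟨h0, hP⟩
  have hmem' : P' ∈ (divOf D.HL (D.coe_ne_zero_of_red_ne_zero hg)).support.filter
      (fun P => D.r P = Q) := by
    rw [Finset.mem_filter, Finsupp.mem_support_iff, divOf_apply]
    exact ⟨h0', hP'⟩
  have hsub : ({P, P'} : Finset (Place L F)) ⊆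
      (divOf D.HL (D.coe_ne_zero_of_red_ne_zero hg)).support.filter (fun P => D.r P = Q) := by
    intro x hx
    rw [Finset.mem_insert, Finset.mem_singleton] at hx
    rcases hx with rfl | rfl
    · exact hmem
    · exact hmem'
  have h1 := Finset.sum_le_sum_of_subset_of_nonneg (f := fun P : Place L F => P.ord (g : F)) hsub
    (fun x hx _ => hpf x (Finset.mem_filter.mp hx).2)
  rwa [Finset.sum_pair hne] at h1

/-- If the reduction vanishes at `Q` (and there are no poles on the fibre), there is a zero in the
fibre. -/
theorem exists_zero_of_ord_red_pos {g : D.G} (hg : D.red g ≠ 0) {Q : Place k Ft}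
    (hpos : 0 < Q.ord (D.red g)) : ∃ P : Place L F, D.r P = Q ∧ 0 < P.ord (g : F) := by
  classical
  by_contra hno
  push Not at hno
  have h := D.fibre_sum g hg Q
  have hle : ∑ P ∈ (divOf D.HL (D.coe_ne_zero_of_red_ne_zero hg)).support.filter
      (fun P => D.r P = Q), P.ord (g : F) ≤ 0 :=
    Finset.sum_nonpos fun P hP => hno P (Finset.mem_filter.mp hP).2
  omega

end RedDatum

end

end Fermat.Agent.FF.RED.RedDatum7
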