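/-
Programme FF (S19), chapter RED, brick F2 EXPAND (helper7): **abstract `u`-adic expansions**.

Pure algebra (Mathlib only).  An `ExpDatum A R` is a commutative ring `R` with a section
`const : A →+* R` of an "evaluation at the centre" `ev : R →+* A`, a regular element `u` with
`ev u = 0`, and a divided-difference operator `dq` with `s = const (ev s) + u * dq s`.

* `dq` is unique, hence additive, `A`-linear and satisfies the Leibniz-type rule `dq_mul`;
* `expand : R →+* PowerSeries A`, `s ↦ Σ ev (dq^n s) Xⁿ`, is a ring homomorphism with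
  `expand (const a) = C a`, `expand u = X`;
* `finite_expansion` : `s = Σ_{n<m} const (coeff n (expand s)) uⁿ + u^m · dq^[m] s` (exact, in `R`);
* `pow_dvd_iff` : `u^m ∣ s ↔` the first `m` coefficients vanish;
* `Hom` : morphisms of expansion data commute with `expand` (`map_expand`).

Instances (file `Expand7`): the ring of integral functions without poles on a residue disc, with a good
uniformizer; the valuation ring of a place with a uniformizer.
-/
import Mathlib

set_option autoImplicit false
set_option linter.unusedSectionVars false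
set_option linter.style.longLine false

namespace Fermat.Agent.FF.RED.ExpDatum7

open PowerSeries

/-- Abstract expansion datum. -/
structure ExpDatum (A R : Type*) [CommRing A] [CommRing R] where
  const : A →+* R
  ev : R →+* A
  ev_const : ∀ a, ev (const a) = a
  u : R
  ev_u : ev u = 0
  u_reg : ∀ x y : R, u * x = u * y → x = y
  dq : R → R
  dq_spec : ∀ s, s = const (ev s) + u * dq s

namespace ExpDatum

variable {A R : Type*} [CommRing A] [CommRing R] (E : ExpDatum A R)

/-- uniqueness of the decomposition `s = const a + u * s'`. -/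
theorem eq_of_spec {s s' : R} {a : A} (h : s = E.const a + E.u * s') :
    a = E.ev s ∧ s' = E.dq s := by
  have ha : E.ev s = a := by
    rw [h, map_add, map_mul, E.ev_const, E.ev_u, zero_mul, add_zero]
  refine ⟨ha.symm, ?_⟩
  apply E.u_reg
  have h2 := E.dq_spec s
  rw [ha] at h2
  have : E.const a + E.u * s' = E.const a + E.u * E.dq s := h ▸ h2
  exact add_left_cancel this

theorem dq_eq {s s' : R} {a : A} (h : s = E.const a + E.u * s') : E.dq s = s' :=
  (E.eq_of_spec h).2.symm

theorem dq_add (s t : R) : E.dq (s + t) = E.dq s + E.dq t := by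
  apply E.dq_eq (a := E.ev s + E.ev t)
  conv_lhs => rw [E.dq_spec s, E.dq_spec t]
  rw [map_add]; ring

theorem dq_const (a : A) : E.dq (E.const a) = 0 := by
  apply E.dq_eq (a := a); ring

theorem dq_zero : E.dq 0 = 0 := by
  have := E.dq_const 0
  rwa [map_zero] at this

theorem dq_u : E.dq E.u = 1 := by
  apply E.dq_eq (a := 0); rw [map_zero]; ring

theorem dq_mul (s t : R) : E.dq (s * t) = E.dq s * t + E.const (E.ev s) * E.dq t := by
  apply E.dq_eq (a := E.ev s * E.ev t)
  conv_lhs => rw [E.dq_spec s]
  conv_lhs => rw [add_mul, mul_assoc]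
  conv_lhs => enter [1, 2]; rw [E.dq_spec t]
  rw [map_mul]; ring

theorem dq_const_mul (a : A) (s : R) : E.dq (E.const a * s) = E.const a * E.dq s := by
  rw [dq_mul, dq_const, zero_mul, zero_add, E.ev_const]

theorem dq_u_mul (s : R) : E.dq (E.u * s) = s := by
  apply E.dq_eq (a := 0); rw [map_zero]; ring

theorem dq_neg (s : R) : E.dq (-s) = -E.dq s := by
  have h := E.dq_add s (-s)
  rw [add_neg_cancel, dq_zero] at h
  exact eq_neg_of_add_eq_zero_right h.symm

theorem dq_sub (s t : R) : E.dq (s - t) = E.dq s - E.dq t := by
  rw [sub_eq_add_neg, dq_add, dq_neg, ← sub_eq_add_neg]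

/-- the `n`-th coefficient -/
def coef (n : ℕ) (s : R) : A := E.ev (E.dq^[n] s)

/-- the expansion as a plain function -/
def expandFun (s : R) : PowerSeries A := PowerSeries.mk fun n => E.coef n s

@[simp] theorem coeff_expandFun (n : ℕ) (s : R) : coeff n (E.expandFun s) = E.coef n s := by
  rw [expandFun, coeff_mk]

theorem coef_zero (s : R) : E.coef 0 s = E.ev s := rfl

theorem coef_succ (n : ℕ) (s : R) : E.coef (n + 1) s = E.coef n (E.dq s) := by
  rw [coef, coef, Function.iterate_succ_apply]

theorem expandFun_eq (s : R) :
    E.expandFun s = C (E.ev s) + X * E.expandFun (E.dq s) := by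
  ext n
  cases n with
  | zero =>
    rw [coeff_expandFun, coef_zero, map_add, coeff_zero_C, coeff_zero_X_mul, add_zero]
  | succ n =>
    rw [coeff_expandFun, coef_succ, map_add, coeff_succ_X_mul, coeff_expandFun, coeff_C,
      if_neg (Nat.succ_ne_zero n), zero_add]

theorem coef_add (n : ℕ) (s t : R) : E.coef n (s + t) = E.coef n s + E.coef n t := by
  induction n generalizing s t with
  | zero => rw [coef_zero, coef_zero, coef_zero, map_add]
  | succ n ih => rw [coef_succ, coef_succ, coef_succ, dq_add, ih]

theorem coef_const_mul (n : ℕ) (a : A) (s : R) : E.coef n (E.const a * s) = a * E.coef n s := by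
  induction n generalizing s with
  | zero => rw [coef_zero, coef_zero, map_mul, E.ev_const]
  | succ n ih => rw [coef_succ, coef_succ, dq_const_mul, ih]

theorem expandFun_add (s t : R) : E.expandFun (s + t) = E.expandFun s + E.expandFun t := by
  ext n; rw [map_add, coeff_expandFun, coeff_expandFun, coeff_expandFun, coef_add]

theorem expandFun_const_mul (a : A) (s : R) :
    E.expandFun (E.const a * s) = C a * E.expandFun s := by
  ext n; rw [coeff_C_mul, coeff_expandFun, coeff_expandFun, coef_const_mul]

theorem expandFun_const (a : A) : E.expandFun (E.const a) = C a := by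
  rw [expandFun_eq, dq_const, E.ev_const]
  have : E.expandFun (0 : R) = 0 := by
    ext n
    rw [coeff_expandFun, map_zero]
    induction n with
    | zero => rw [coef_zero, map_zero]
    | succ n ih => rw [coef_succ, dq_zero, ih]
  rw [this, mul_zero, add_zero]

theorem expandFun_one : E.expandFun (1 : R) = 1 := by
  have := E.expandFun_const 1
  rwa [map_one, map_one] at this

theorem expandFun_zero : E.expandFun (0 : R) = 0 := by
  have := E.expandFun_const 0
  rwa [map_zero, map_zero] at this

theorem expandFun_mul (s t : R) : E.expandFun (s * t) = E.expandFun s * E.expandFun t := by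
  ext n
  induction n generalizing s t with
  | zero =>
    rw [coeff_expandFun, coef_zero, map_mul, coeff_zero_eq_constantCoeff, map_mul,
      ← coeff_zero_eq_constantCoeff, coeff_expandFun, coeff_expandFun, coef_zero, coef_zero]
  | succ n ih =>
    have h1 : coeff (n + 1) (E.expandFun (s * t)) =
        coeff n (E.expandFun (E.dq s) * E.expandFun t) +
          E.ev s * coeff n (E.expandFun (E.dq t)) := by
      rw [coeff_expandFun, coef_succ, dq_mul, coef_add, ← coeff_expandFun, ih, coef_const_mul,
        coeff_expandFun]
    have h2 : coeff (n + 1) (E.expandFun s * E.expandFun t) =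
        coeff n (E.expandFun (E.dq s) * E.expandFun t) +
          E.ev s * coeff n (E.expandFun (E.dq t)) := by
      conv_lhs => rw [E.expandFun_eq s, add_mul, mul_assoc, map_add, coeff_succ_X_mul, coeff_C_mul]
      rw [coeff_expandFun, coef_succ, ← coeff_expandFun, add_comm]
    rw [h1, h2]

/-- **The expansion homomorphism** `R →+* A⟦X⟧`. -/
def expand : R →+* PowerSeries A where
  toFun := E.expandFun
  map_one' := E.expandFun_one
  map_mul' := E.expandFun_mul
  map_zero' := E.expandFun_zero
  map_add' := E.expandFun_add

@[simp] theorem coeff_expand (n : ℕ) (s : R) : coeff n (E.expand s) = E.coef n s :=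
  E.coeff_expandFun n s

@[simp] theorem expand_const (a : A) : E.expand (E.const a) = C a := E.expandFun_const a

@[simp] theorem expand_u : E.expand E.u = X := by
  show E.expandFun E.u = X
  rw [expandFun_eq, E.ev_u, dq_u, expandFun_one, map_zero, zero_add, mul_one]

theorem constantCoeff_expand (s : R) : constantCoeff (E.expand s) = E.ev s := by
  rw [← coeff_zero_eq_constantCoeff, coeff_expand, coef_zero]

theorem expand_eq (s : R) : E.expand s = C (E.ev s) + X * E.expand (E.dq s) := E.expandFun_eq s

theorem expand_dq (s : R) : X * E.expand (E.dq s) = E.expand s - C (E.ev s) := by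
  rw [E.expand_eq s]; ring

/-- **finite expansion with exact remainder** -/
theorem finite_expansion (s : R) (m : ℕ) :
    s = (∑ n ∈ Finset.range m, E.const (E.coef n s) * E.u ^ n) + E.u ^ m * E.dq^[m] s := by
  induction m generalizing s with
  | zero => simp
  | succ m ih =>
    have h1 := ih (E.dq s)
    have h2 := E.dq_spec s
    rw [Finset.sum_range_succ', Function.iterate_succ_apply]
    conv_lhs => rw [h2, h1]
    rw [coef_zero, pow_zero, mul_one, mul_add, Finset.mul_sum]
    have : ∀ n ∈ Finset.range m, E.u * (E.const (E.coef n (E.dq s)) * E.u ^ n) =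
        E.const (E.coef (n + 1) s) * E.u ^ (n + 1) := by
      intro n _
      rw [coef_succ]; ring
    rw [Finset.sum_congr rfl this]
    ring

/-- the first `m` coefficients vanish iff `u^m` divides. -/
theorem pow_dvd_iff (s : R) (m : ℕ) : E.u ^ m ∣ s ↔ ∀ n < m, E.coef n s = 0 := by
  constructor
  · rintro ⟨t, rfl⟩ n hn
    have : E.expand (E.u ^ m * t) = X ^ m * E.expand t := by
      rw [map_mul, map_pow, expand_u]
    rw [← coeff_expand, this, coeff_X_pow_mul', if_neg (by omega)]
  · intro h
    refine ⟨E.dq^[m] s, ?_⟩
    have h1 := E.finite_expansion s m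
    rw [Finset.sum_eq_zero (fun n hn => by rw [h n (Finset.mem_range.mp hn), map_zero, zero_mul]),
      zero_add] at h1
    exact h1

theorem u_dvd_iff (s : R) : E.u ∣ s ↔ E.ev s = 0 := by
  have := E.pow_dvd_iff s 1
  rw [pow_one] at this
  rw [this]
  constructor
  · intro h; exact h 0 Nat.one_pos
  · intro h n hn
    have : n = 0 := by omega
    subst this; exact h

/-- `ev` applied to the finite expansion through any ring hom `φ : R →+* B`. -/
theorem map_finite_expansion {B : Type*} [CommRing B] (φ : R →+* B) (s : R) (m : ℕ) :
    φ s = (∑ n ∈ Finset.range m, φ (E.const (E.coef n s)) * φ E.u ^ n) +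
      φ E.u ^ m * φ (E.dq^[m] s) := by
  conv_lhs => rw [E.finite_expansion s m]
  rw [map_add, map_sum, map_mul, map_pow]
  refine congrArg₂ _ (Finset.sum_congr rfl fun n _ => ?_) rfl
  rw [map_mul, map_pow]

/-! ### morphisms -/

/-- A morphism of expansion data. -/
structure Hom {A' R' : Type*} [CommRing A'] [CommRing R'] (E : ExpDatum A R) (E' : ExpDatum A' R') where
  ρ : R →+* R'
  res : A →+* A'
  ρ_const : ∀ a, ρ (E.const a) = E'.const (res a)
  res_ev : ∀ s, res (E.ev s) = E'.ev (ρ s)
  ρ_u : ρ E.u = E'.u

variable {A' R' : Type*} [CommRing A'] [CommRing R'] {E} {E' : ExpDatum A' R'} (f : Hom E E')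

theorem Hom.ρ_dq (s : R) : f.ρ (E.dq s) = E'.dq (f.ρ s) := by
  symm
  apply E'.dq_eq (a := f.res (E.ev s))
  conv_lhs => rw [E.dq_spec s]
  rw [map_add, map_mul, f.ρ_const, f.ρ_u]

theorem Hom.res_coef (n : ℕ) (s : R) : f.res (E.coef n s) = E'.coef n (f.ρ s) := by
  induction n generalizing s with
  | zero => rw [coef_zero, coef_zero, f.res_ev]
  | succ n ih => rw [coef_succ, coef_succ, ih, f.ρ_dq]

/-- morphisms commute with expansions. -/
theorem Hom.map_expand (s : R) :
    PowerSeries.map f.res (E.expand s) = E'.expand (f.ρ s) := by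
  ext n
  rw [coeff_map, coeff_expand, coeff_expand, f.res_coef]

end ExpDatum

end Fermat.Agent.FF.RED.ExpDatum7
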