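/-
Programme FF (S19), chapter RED (helper7): **the Gauss ring of a `RedDatum` is a valuation ring**.

The field `norm` of `RedDatum` forces `D.G` to be the valuation ring of the Gauss valuation of `F`:

* `mem_A_of_const_mem` : `G ∩ L = A`;
* `inv_mem`            : `g ∈ G`, `red g ≠ 0` ⟹ `g⁻¹ ∈ G` (integral functions with nonzero reduction are
  units of `G`);
* `mem_of_mul_mem`     : `u ∈ G`, `red u ≠ 0`, `u * y ∈ G` ⟹ `y ∈ G`;
* `divG`, `red_divG`   : quotients `y / z` with `red z ≠ 0`;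
* `mem_or_inv_mem`     : `G` is a valuation ring of `F`;
* `sat_of_norm`        : the field `sat` is a consequence of the others (for the instantiation F0).
-/
import Mathlib
import Fermat.Agent.FF.RED.RedDatum7

set_option autoImplicit false
set_option linter.unusedSectionVars false
set_option linter.style.longLine false

namespace Fermat.Agent.FF.RED.Gauss7

open AlgebraicCurve Fermat.Agent.FF.RED.RedDatum7

noncomputable section

variable {L F k Ft : Type*} [Field L] [Field F] [Algebra L F] [Field k] [Field Ft] [Algebra k Ft]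

/-! ### valuation subring generalities -/

theorem not_isUnit_inv_of_not_mem (A : ValuationSubring L) {c : L} (hc : c ∉ A)
    (hinv : c⁻¹ ∈ A) : ¬ IsUnit (⟨c⁻¹, hinv⟩ : A) := by
  intro hu
  have hc0 : c ≠ 0 := fun h0 => hc (h0 ▸ A.zero_mem)
  obtain ⟨b, hb⟩ := hu.exists_right_inv
  have hb' : c⁻¹ * (b : L) = 1 := congrArg Subtype.val hb
  have : (b : L) = c := by
    field_simp at hb'
    exact hb'
  exact hc (this ▸ b.2)

theorem inv_mem_of_isUnit (A : ValuationSubring L) {a : A} (ha : IsUnit a) : (a : L)⁻¹ ∈ A := by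
  obtain ⟨b, hb⟩ := ha.exists_right_inv
  have hb' : (a : L) * (b : L) = 1 := congrArg Subtype.val hb
  have : (a : L)⁻¹ = (b : L) := by
    rw [inv_eq_iff_eq_inv]
    exact eq_inv_of_mul_eq_one_left hb'
  rw [this]
  exact b.2

/-! ### the Gauss ring is a valuation ring -/

variable (D : RedDatum L F k Ft)

theorem isUnit_of_res_ne_zero {a : D.A} (ha : D.res a ≠ 0) : IsUnit a := by
  by_contra h
  exact ha ((D.res_eq_zero_iff a).mpr h)

/-- `G ∩ L = A`. -/
theorem mem_A_of_const_mem {c : L} (h : algebraMap L F c ∈ D.G) : c ∈ D.A := by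
  by_contra hc
  have hinv : c⁻¹ ∈ D.A := (D.A.mem_or_inv_mem c).resolve_left hc
  have hc0 : c ≠ 0 := fun h0 => hc (h0 ▸ D.A.zero_mem)
  have hnu := not_isUnit_inv_of_not_mem D.A hc hinv
  have h1 : (1 : D.G) = D.const ⟨c⁻¹, hinv⟩ * ⟨algebraMap L F c, h⟩ := by
    apply Subtype.ext
    show (1 : F) = algebraMap L F c⁻¹ * algebraMap L F c
    rw [← map_mul, inv_mul_cancel₀ hc0, map_one]
  have h2 := congrArg D.red h1
  rw [map_one, map_mul, D.red_const', D.res_eq_zero_of_mem_maximalIdeal hnu, map_zero,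
    zero_mul] at h2
  exact one_ne_zero h2

/-- integral functions with nonzero reduction are units of the Gauss ring. -/
theorem inv_mem {g : D.G} (hg : D.red g ≠ 0) : (g : F)⁻¹ ∈ D.G := by
  have hg0 : (g : F) ≠ 0 := D.coe_ne_zero_of_red_ne_zero hg
  obtain ⟨c, hc0, g', hg', hred'⟩ := D.norm (g : F)⁻¹ (inv_ne_zero hg0)
  have hprod : (g' : F) * (g : F) = algebraMap L F c := by
    rw [hg', mul_assoc, inv_mul_cancel₀ hg0, mul_one]
  have hcG : algebraMap L F c ∈ D.G := hprod ▸ (g' * g).2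
  have hcA : c ∈ D.A := mem_A_of_const_mem D hcG
  have hres : D.res ⟨c, hcA⟩ ≠ 0 := by
    intro h0
    have h1 : D.const ⟨c, hcA⟩ = g' * g := Subtype.ext hprod.symm
    have h2 := congrArg D.red h1
    rw [D.red_const', h0, map_zero, map_mul] at h2
    exact mul_ne_zero hred' hg h2.symm
  have hu : IsUnit (⟨c, hcA⟩ : D.A) := isUnit_of_res_ne_zero D hres
  have hcinv : c⁻¹ ∈ D.A := inv_mem_of_isUnit D.A hu
  have : (g : F)⁻¹ = algebraMap L F c⁻¹ * (g' : F) := by
    rw [hg', ← mul_assoc, ← map_mul, inv_mul_cancel₀ hc0, map_one, one_mul]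
  rw [this]
  exact D.G.mul_mem (D.const_mem ⟨c⁻¹, hcinv⟩) g'.2

/-- The inverse of an integral function with nonzero reduction, in the Gauss ring. -/
def invG (g : D.G) (hg : D.red g ≠ 0) : D.G := ⟨(g : F)⁻¹, inv_mem D hg⟩

@[simp] theorem coe_invG (g : D.G) (hg : D.red g ≠ 0) : ((invG D g hg : D.G) : F) = (g : F)⁻¹ := rfl

theorem mul_invG (g : D.G) (hg : D.red g ≠ 0) : g * invG D g hg = 1 :=
  Subtype.ext (mul_inv_cancel₀ (D.coe_ne_zero_of_red_ne_zero hg))

theorem red_invG (g : D.G) (hg : D.red g ≠ 0) : D.red (invG D g hg) = (D.red g)⁻¹ := by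
  have h := congrArg D.red (mul_invG D g hg)
  rw [map_mul, map_one] at h
  exact eq_inv_of_mul_eq_one_right h

/-- quotients with nonzero-reduction denominators. -/
def divG (y z : D.G) (hz : D.red z ≠ 0) : D.G := y * invG D z hz

@[simp] theorem coe_divG (y z : D.G) (hz : D.red z ≠ 0) :
    ((divG D y z hz : D.G) : F) = (y : F) / (z : F) := by
  show (y : F) * (z : F)⁻¹ = _
  rw [div_eq_mul_inv]

theorem red_divG (y z : D.G) (hz : D.red z ≠ 0) :
    D.red (divG D y z hz) = D.red y / D.red z := by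
  rw [divG, map_mul, red_invG, div_eq_mul_inv]

theorem div_mem {y z : F} (hy : y ∈ D.G) (hz : z ∈ D.G) (hred : D.red ⟨z, hz⟩ ≠ 0) :
    y / z ∈ D.G := by
  have := (divG D ⟨y, hy⟩ ⟨z, hz⟩ hred).2
  rwa [coe_divG] at this

/-- cancellation of a factor with nonzero reduction. -/
theorem mem_of_mul_mem {u : D.G} (hu : D.red u ≠ 0) {y : F} (h : (u : F) * y ∈ D.G) : y ∈ D.G := by
  have hu0 : (u : F) ≠ 0 := D.coe_ne_zero_of_red_ne_zero hu
  have : y = (u : F)⁻¹ * ((u : F) * y) := by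
    rw [← mul_assoc, inv_mul_cancel₀ hu0, one_mul]
  rw [this]
  exact D.G.mul_mem (inv_mem D hu) h

/-- `G` is a valuation ring of `F`. -/
theorem mem_or_inv_mem (y : F) : y ∈ D.G ∨ y⁻¹ ∈ D.G := by
  rcases eq_or_ne y 0 with rfl | hy
  · exact Or.inl D.G.zero_mem
  obtain ⟨c, hc0, g, hg, hred⟩ := D.norm y hy
  rcases D.A.mem_or_inv_mem c with hc | hc
  · right
    have : y⁻¹ = algebraMap L F c * (g : F)⁻¹ := by
      rw [hg, mul_inv, ← mul_assoc, mul_inv_cancel₀ ((map_ne_zero _).mpr hc0), one_mul]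
    rw [this]
    exact D.G.mul_mem (D.const_mem ⟨c, hc⟩) (inv_mem D hred)
  · left
    have : y = algebraMap L F c⁻¹ * (g : F) := by
      rw [hg, ← mul_assoc, ← map_mul, inv_mul_cancel₀ hc0, map_one, one_mul]
    rw [this]
    exact D.G.mul_mem (D.const_mem ⟨c⁻¹, hc⟩) g.2

/-- every element of `F` is a quotient of integral functions (the denominator a constant). -/
theorem exists_const_mul_mem (y : F) : ∃ a : D.A, (a : L) ≠ 0 ∧ algebraMap L F a * y ∈ D.G := by
  rcases eq_or_ne y 0 with rfl | hy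
  · exact ⟨1, by simp, by simp [D.G.zero_mem]⟩
  obtain ⟨c, hc0, g, hg, _⟩ := D.norm y hy
  rcases D.A.mem_or_inv_mem c with hc | hc
  · exact ⟨⟨c, hc⟩, hc0, hg ▸ g.2⟩
  · refine ⟨1, by simp, ?_⟩
    have : y = algebraMap L F c⁻¹ * (g : F) := by
      rw [hg, ← mul_assoc, ← map_mul, inv_mul_cancel₀ hc0, map_one, one_mul]
    simp only [OneMemClass.coe_one, map_one, one_mul]
    rw [this]
    exact D.G.mul_mem (D.const_mem ⟨c⁻¹, hc⟩) g.2

/-! ### `sat` from `norm` (for the instantiation) -/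

/-- The saturation field of `RedDatum` follows from the normalisation field. -/
theorem sat_of_norm (A : ValuationSubring L) (G : Subring F) (red : G →+* Ft)
    (const_mem : ∀ a : A, algebraMap L F a ∈ G)
    (norm : ∀ y : F, y ≠ 0 → ∃ c : L, c ≠ 0 ∧ ∃ g : G, (g : F) = algebraMap L F c * y ∧ red g ≠ 0)
    (g : G) (hg : red g = 0) :
    ∃ c : A, ¬ IsUnit c ∧ ∃ g' : G, (g : F) = algebraMap L F c * (g' : F) := by
  rcases eq_or_ne (g : F) 0 with h0 | h0
  · refine ⟨0, not_isUnit_zero, 0, ?_⟩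
    rw [h0]; simp
  obtain ⟨c, hc0, g', hg', hred'⟩ := norm (g : F) h0
  have hcA : c ∉ A := by
    intro hc
    apply hred'
    have : g' = ⟨algebraMap L F (⟨c, hc⟩ : A), const_mem ⟨c, hc⟩⟩ * g := Subtype.ext hg'
    rw [this, map_mul, hg, mul_zero]
  have hinv : c⁻¹ ∈ A := (A.mem_or_inv_mem c).resolve_left hcA
  refine ⟨⟨c⁻¹, hinv⟩, not_isUnit_inv_of_not_mem A hcA hinv, g', ?_⟩
  rw [hg', ← mul_assoc, ← map_mul, inv_mul_cancel₀ hc0, map_one, one_mul]

end

end Fermat.Agent.FF.RED.Gauss7
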