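/-
Programme FF (S19), chapter RED (helper7): **semilinear automorphisms of a good-reduction datum**
and the equivariance of discs, values and expansions.

* `exists_unique_isGoodUnif_of_ord_red` : an integral function without poles on `U(Q)` whose reduction is a
  uniformizer at `Q` is a good uniformizer, centred at its unique zero in `U(Q)`  (for (n6): `t − c`);
* `RedAut D` : a pair of semilinear automorphisms `g` of `F / L` and `gt` of `Ft / k` preserving `A`, `G`,
  commuting with `res`, `red`, `r`;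
* `RedAut.poleFree_smul`, `isGoodUnif_smul`, `smulA`, `smulR`, `evR_smulR`, `Chart.smul`,
  `Chart.smulHom`, `Chart.map_smulA_expand` (the expansion of `g • s` in the chart `g • c` is the
  coefficientwise conjugate);
* inertia-type corollaries (`gt` fixes `Q`, `g` fixes `u`): `Chart.P_eq_of_u_eq`,
  `RedAut.smul_centre_eq`, `RedAut.smulA_coef_eq` (coefficients of fixed functions are fixed).
-/
import Mathlib
import Fermat.Agent.FF.RED.Expand7
import Fermat.Agent.MW.EMB.GalVal1

set_option autoImplicit false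
set_option linter.unusedSectionVars false
set_option linter.style.longLine false

namespace Fermat.Agent.FF.RED.RedAut7

open AlgebraicCurve Fermat.Agent.X0.FF Fermat.Agent.RR.LSpace Fermat.Agent.MW.EMB.Value6
open Fermat.Agent.FF.RED.RedDatum7 Fermat.Agent.FF.RED.Disc7 Fermat.Agent.FF.RED.Gauss7
open Fermat.Agent.FF.RED.ExpDatum7 Fermat.Agent.FF.RED.Expand7
open Fermat.Agent.MW.EMB.GalVal1

noncomputable section

variable {L F k Ft : Type*} [Field L] [Field F] [Algebra L F] [Field k] [Field Ft] [Algebra k Ft]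
variable {D : RedDatum L F k Ft}

/-! ### functions whose reduction is a uniformizer -/

/-- An integral function without poles on `U(Q)` whose reduction is a uniformizer at `Q` has a unique
zero `P` in `U(Q)` and is a good uniformizer centred at `P`. -/
theorem exists_unique_isGoodUnif_of_ord_red (u : D.G) {Q : Place k Ft}
    (hpf : D.PoleFree (u : F) Q) (h1 : Q.ord (D.red u) = 1) :
    ∃! P : Place L F, D.r P = Q ∧ IsGoodUnif D P u := by
  have hred0 : D.red u ≠ 0 := by
    intro h0
    rw [h0, Place.ord_zero] at h1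
    omega
  obtain ⟨P, hP, hpos⟩ := D.exists_zero_of_ord_red_pos hred0 (by rw [h1]; norm_num)
  have hle := D.ord_le_ord_red hred0 hpf hP
  have hP1 : P.ord (u : F) = 1 := by omega
  have hgood : IsGoodUnif D P u := by
    refine ⟨hP1, hred0, fun P' hP' => ⟨hpf P' (hP'.trans hP), fun hne => ?_⟩⟩
    have h2 := D.ord_add_ord_le_ord_red hred0 hpf hP (hP'.trans hP) (Ne.symm hne)
    have h3 := hpf P' (hP'.trans hP)
    omega
  refine ⟨P, ⟨hP, hgood⟩, fun P' hP' => ?_⟩
  by_contra hne
  have h0 := (hgood.2.2 P' (hP'.1.trans hP.symm)).2 hne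
  have h1' := hP'.2.1
  omega

/-- two charts of the same disc with the same uniformizer have the same centre. -/
theorem Chart.P_eq_of_u_eq {Q : Place k Ft} (c c' : Chart D Q) (h : c.u = c'.u) : c.P = c'.P := by
  by_contra hne
  have h0 := c'.ord_u_of_ne c.hP hne
  rw [← h, c.ord_u_centre] at h0
  omega

/-! ### semilinear automorphisms of the datum -/

variable (D)

/-- A semilinear automorphism of a good-reduction datum. -/
structure RedAut where
  g : SemilinearAut L F
  gt : SemilinearAut k Ft
  map_A : ∀ a ∈ D.A, SemilinearAut.baseAut g a ∈ D.A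
  res_map : ∀ a : D.A, D.res ⟨SemilinearAut.baseAut g a, map_A a a.2⟩ =
    SemilinearAut.baseAut gt (D.res a)
  map_G : ∀ y ∈ D.G, g • y ∈ D.G
  red_map : ∀ y : D.G, D.red ⟨g • (y : F), map_G y y.2⟩ = gt • D.red y
  r_map : ∀ P : Place L F, D.r (g • P) = gt • D.r P

variable {D}

namespace RedAut

variable (α : RedAut D)

/-- the action on `A` -/
def smulA : D.A →+* D.A where
  toFun a := ⟨SemilinearAut.baseAut α.g a, α.map_A a a.2⟩
  map_one' := Subtype.ext (map_one _)
  map_mul' _ _ := Subtype.ext (map_mul _ _ _)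
  map_zero' := Subtype.ext (map_zero _)
  map_add' _ _ := Subtype.ext (map_add _ _ _)

@[simp] theorem coe_smulA (a : D.A) : ((α.smulA a : D.A) : L) = SemilinearAut.baseAut α.g a := rfl

theorem res_smulA (a : D.A) : D.res (α.smulA a) = SemilinearAut.baseAut α.gt (D.res a) :=
  α.res_map a

/-- the action on the Gauss ring -/
def smulG (y : D.G) : D.G := ⟨α.g • (y : F), α.map_G y y.2⟩

@[simp] theorem coe_smulG (y : D.G) : ((α.smulG y : D.G) : F) = α.g • (y : F) := rfl

theorem red_smulG (y : D.G) : D.red (α.smulG y) = α.gt • D.red y := α.red_map y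

theorem smulG_const (a : D.A) : α.smulG (D.const a) = D.const (α.smulA a) :=
  Subtype.ext (SemilinearAut.smul_algebraMap α.g _)

theorem smulG_sub (y z : D.G) : α.smulG (y - z) = α.smulG y - α.smulG z :=
  Subtype.ext (smul_sub' α.g _ _)

theorem ord_smul (P : Place L F) (f : F) : (α.g • P).ord (α.g • f) = P.ord f :=
  SemilinearAut.ord_smul α.g P f

theorem ord_smul_t (Q : Place k Ft) (f : Ft) : (α.gt • Q).ord (α.gt • f) = Q.ord f :=
  SemilinearAut.ord_smul α.gt Q f

/-- every place of the fibre of `gt • Q` is the image of a place of the fibre of `Q`. -/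
theorem exists_smul_eq {Q : Place k Ft} {P' : Place L F} (hP' : D.r P' = α.gt • Q) :
    ∃ P : Place L F, D.r P = Q ∧ α.g • P = P' := by
  refine ⟨α.g⁻¹ • P', ?_, smul_inv_smul _ _⟩
  have h := α.r_map (α.g⁻¹ • P')
  rw [smul_inv_smul, hP'] at h
  exact (MulAction.injective α.gt h).symm

theorem poleFree_smul {s : F} {Q : Place k Ft} (hs : D.PoleFree s Q) :
    D.PoleFree (α.g • s) (α.gt • Q) := by
  intro P' hP'
  obtain ⟨P, hP, rfl⟩ := α.exists_smul_eq hP'
  rw [α.ord_smul]
  exact hs P hP

theorem smulG_red_ne_zero {y : D.G} (hy : D.red y ≠ 0) : D.red (α.smulG y) ≠ 0 := by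
  rw [α.red_smulG]
  intro h
  exact hy ((smul_eq_zero_iff α.gt _).mp h)

/-- **good uniformizers are transported.** -/
theorem isGoodUnif_smul {P : Place L F} {u : D.G} (hu : IsGoodUnif D P u) :
    IsGoodUnif D (α.g • P) (α.smulG u) := by
  refine ⟨?_, α.smulG_red_ne_zero hu.2.1, fun P' hP' => ?_⟩
  · rw [coe_smulG, α.ord_smul]; exact hu.1
  · rw [α.r_map] at hP'
    obtain ⟨P₀, hP₀, rfl⟩ := α.exists_smul_eq hP'
    rw [coe_smulG, α.ord_smul]
    refine ⟨(hu.2.2 P₀ hP₀).1, fun hne => (hu.2.2 P₀ hP₀).2 fun h => hne (by rw [h])⟩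

/-- the action on disc rings -/
def smulR {Q Q' : Place k Ft} (hQ : α.gt • Q = Q') : discRing D Q →+* discRing D Q' where
  toFun s := ⟨α.g • (s : F), α.map_G _ s.2.1, hQ ▸ α.poleFree_smul s.2.2⟩
  map_one' := Subtype.ext (by
    show α.g • ((1 : discRing D Q) : F) = 1
    rw [Subring.coe_one, smul_one])
  map_mul' s t := Subtype.ext (by
    show α.g • ((s * t : discRing D Q) : F) = α.g • (s : F) * α.g • (t : F)
    rw [Subring.coe_mul, smul_mul'])
  map_zero' := Subtype.ext (by
    show α.g • ((0 : discRing D Q) : F) = 0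
    rw [Subring.coe_zero, smul_zero])
  map_add' s t := Subtype.ext (by
    show α.g • ((s + t : discRing D Q) : F) = α.g • (s : F) + α.g • (t : F)
    rw [Subring.coe_add, smul_add])

@[simp] theorem coe_smulR {Q Q' : Place k Ft} (hQ : α.gt • Q = Q') (s : discRing D Q) :
    ((α.smulR hQ s : discRing D Q') : F) = α.g • (s : F) := rfl

theorem smulR_constR {Q Q' : Place k Ft} (hQ : α.gt • Q = Q') (a : D.A) :
    α.smulR hQ (constR D Q a) = constR D Q' (α.smulA a) :=
  Subtype.ext (SemilinearAut.smul_algebraMap α.g _)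

theorem r_smul_eq {Q Q' : Place k Ft} (hQ : α.gt • Q = Q') {P : Place L F} (hP : D.r P = Q) :
    D.r (α.g • P) = Q' := by rw [α.r_map, hP, hQ]

/-- **values are equivariant.** -/
theorem evR_smulR {Q Q' : Place k Ft} (hQ : α.gt • Q = Q') {P : Place L F} (hP : D.r P = Q)
    (s : discRing D Q) :
    evR (α.r_smul_eq hQ hP) (α.smulR hQ s) = α.smulA (evR hP s) :=
  Subtype.ext (valF_smul D.HL α.g P (s : F))

end RedAut

end

end Fermat.Agent.FF.RED.RedAut7

namespace Fermat.Agent.FF.RED.Expand7.Chart

open AlgebraicCurve Fermat.Agent.X0.FF Fermat.Agent.RR.LSpace Fermat.Agent.MW.EMB.Value6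
open Fermat.Agent.FF.RED.RedDatum7 Fermat.Agent.FF.RED.Disc7 Fermat.Agent.FF.RED.Gauss7
open Fermat.Agent.FF.RED.ExpDatum7 Fermat.Agent.FF.RED.Expand7
open Fermat.Agent.MW.EMB.GalVal1
open Fermat.Agent.FF.RED.RedAut7

noncomputable section

variable {L F k Ft : Type*} [Field L] [Field F] [Algebra L F] [Field k] [Field Ft] [Algebra k Ft]
variable {D : RedDatum L F k Ft}

variable {Q Q' : Place k Ft} (c : Chart D Q) (α : RedAut D) (hQ : α.gt • Q = Q')

/-- transport of a chart. -/
def smul : Chart D Q' where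
  P := α.g • c.P
  hP := α.r_smul_eq hQ c.hP
  u := α.smulG c.u
  hu := α.isGoodUnif_smul c.hu

theorem smul_uR : (c.smul α hQ).uR = α.smulR hQ c.uR := rfl

/-- transport as a morphism of expansion data. -/
def smulHom : ExpDatum.Hom c.expDatum (c.smul α hQ).expDatum where
  ρ := α.smulR hQ
  res := α.smulA
  ρ_const := α.smulR_constR hQ
  res_ev := fun s => (α.evR_smulR hQ c.hP s).symm
  ρ_u := rfl

/-- **expansions are equivariant**: the expansion of `g • s` in the transported chart is the
coefficientwise conjugate of the expansion of `s`. -/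
theorem map_smulA_expand (s : discRing D Q) :
    PowerSeries.map α.smulA (c.expand s) = (c.smul α hQ).expand (α.smulR hQ s) :=
  (c.smulHom α hQ).map_expand s

theorem smulA_coef (n : ℕ) (s : discRing D Q) :
    α.smulA (c.coef n s) = (c.smul α hQ).coef n (α.smulR hQ s) :=
  (c.smulHom α hQ).res_coef n s

theorem smul_dq (s : discRing D Q) :
    α.smulR hQ (c.dq s) = (c.smul α hQ).dq (α.smulR hQ s) :=
  (c.smulHom α hQ).ρ_dq s

end

end Fermat.Agent.FF.RED.Expand7.Chart

/-! ### inertia-type corollaries -/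

namespace Fermat.Agent.FF.RED.RedAut7

open AlgebraicCurve Fermat.Agent.X0.FF Fermat.Agent.RR.LSpace Fermat.Agent.MW.EMB.Value6
open Fermat.Agent.FF.RED.RedDatum7 Fermat.Agent.FF.RED.Disc7 Fermat.Agent.FF.RED.Gauss7
open Fermat.Agent.FF.RED.ExpDatum7 Fermat.Agent.FF.RED.Expand7
open Fermat.Agent.MW.EMB.GalVal1

noncomputable section

variable {L F k Ft : Type*} [Field L] [Field F] [Algebra L F] [Field k] [Field Ft] [Algebra k Ft]
variable {D : RedDatum L F k Ft}

namespace RedAut

variable (α : RedAut D) {Q : Place k Ft}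

/-- if the automorphism fixes the disc and the uniformizer, it fixes the centre. -/
theorem smul_centre_eq (hQ : α.gt • Q = Q) (c : Chart D Q)
    (hu : α.g • (c.u : F) = (c.u : F)) : α.g • c.P = c.P := by
  have h : (c.smul α hQ).u = c.u := Subtype.ext hu
  exact Chart.P_eq_of_u_eq (c.smul α hQ) c h

theorem smul_chart_eq (hQ : α.gt • Q = Q) (c : Chart D Q)
    (hu : α.g • (c.u : F) = (c.u : F)) : c.smul α hQ = c := by
  have hP := α.smul_centre_eq hQ c hu
  have h : (c.smul α hQ).u = c.u := Subtype.ext hu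
  cases c with
  | mk P hP' u hu' =>
    simp only [Expand7.Chart.smul] at hP h ⊢
    congr 1

/-- **coefficients of fixed functions in a fixed chart are fixed.** -/
theorem smulA_coef_eq (hQ : α.gt • Q = Q) (c : Chart D Q)
    (hu : α.g • (c.u : F) = (c.u : F)) (s : discRing D Q)
    (hs : α.g • (s : F) = (s : F)) (n : ℕ) : α.smulA (c.coef n s) = c.coef n s := by
  have h1 := c.smulA_coef α hQ n s
  have h2 : α.smulR hQ s = s := Subtype.ext hs
  rw [h2, α.smul_chart_eq hQ c hu] at h1
  exact h1

/-- places of a fixed disc are permuted; coordinates are conjugated. -/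
theorem evR_uR_smul (hQ : α.gt • Q = Q) (c : Chart D Q)
    (hu : α.g • (c.u : F) = (c.u : F)) {P' : Place L F} (hP' : D.r P' = Q) :
    evR (α.r_smul_eq hQ hP') c.uR = α.smulA (evR hP' c.uR) := by
  have h := α.evR_smulR hQ hP' c.uR
  have h2 : α.smulR hQ c.uR = c.uR := Subtype.ext hu
  rw [h2] at h
  exact h

end RedAut

end

end Fermat.Agent.FF.RED.RedAut7
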